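import Fermat.Agent.S15.M1.Loc.Psi2

/-!
# S15 / M1 / LOC : `psiProd` only depends on the cyclic group generated by `Q`
-/

set_option autoImplicit false
set_option linter.unusedSectionVars false
set_option linter.unusedVariables false

namespace Fermat.Agent.S15.M1.Loc

open Fermat.Agent.S05 Fermat.Agent.S13 Fermat.Agent.S58 Fermat.Agent.S58.LocM
open WeierstrassCurve WeierstrassCurve.Affine WeierstrassCurve.Affine.Point

section gen

variable {G : Type*} [AddCommGroup G] {M : Type*} [CommMonoid M]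

open Classical in
/-- the product of `f` over the nonzero multiples of `Q` only depends on the group `⟨Q⟩`. -/
theorem prod_Ico_nsmul_eq {Q R : G} {N : ℕ} (hQ : addOrderOf Q = N) (hR : addOrderOf R = N)
    (hRQ : R ∈ AddSubgroup.zmultiples Q) (hN : 0 < N) (f : G → M) :
    ∏ k ∈ Finset.Ico 1 N, f (k • R) = ∏ k ∈ Finset.Ico 1 N, f (k • Q) := by
  have inj : ∀ {P : G}, addOrderOf P = N →
      Set.InjOn (fun k : ℕ => k • P) (Finset.Ico 1 N : Finset ℕ) := by
    intro P hP a ha b hb hab
    rw [Finset.coe_Ico] at ha hb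
    exact nsmul_injOn_Iio_addOrderOf (by rw [hP]; exact ha.2) (by rw [hP]; exact hb.2) hab
  have e1 : ∀ {P : G}, addOrderOf P = N →
      ∏ k ∈ Finset.Ico 1 N, f (k • P) = ∏ T ∈ (Finset.Ico 1 N).image (fun k : ℕ => k • P), f T := by
    intro P hP
    rw [Finset.prod_image (inj hP)]
  rw [e1 hQ, e1 hR]
  congr 1
  apply Finset.eq_of_subset_of_card_le
  · intro T hT
    rw [Finset.mem_image] at hT ⊢
    obtain ⟨k, hk, rfl⟩ := hT
    have hk0 := nsmul_ne_zero_of_mem_Ico hR hk
    have hmem : k • R ∈ AddSubgroup.zmultiples Q := AddSubgroup.nsmul_mem _ hRQ k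
    have hfin : IsOfFinAddOrder Q := by
      rw [← addOrderOf_pos_iff, hQ]; exact hN
    rw [← hfin.mem_multiples_iff_mem_zmultiples] at hmem
    obtain ⟨m, hm⟩ := hmem
    have hm' : (m % N) • Q = k • R := by
      rw [← hQ, mod_addOrderOf_nsmul]; exact hm
    refine ⟨m % N, Finset.mem_Ico.mpr ⟨?_, Nat.mod_lt _ hN⟩, hm'⟩
    rcases Nat.eq_zero_or_pos (m % N) with h0 | h0
    · rw [h0, zero_nsmul] at hm'
      exact absurd hm'.symm hk0
    · exact h0
  · rw [Finset.card_image_of_injOn (inj hQ), Finset.card_image_of_injOn (inj hR)]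

end gen

variable {W : WeierstrassCurve ℤ}

/-- Galois invariance of `psiProd` for a Galois stable cyclic subgroup. -/
theorem psiProd_fixed' {N : ℕ} (hN : 0 < N) {Q : EP W} (hQ : addOrderOf Q = N) (σ : GQ)
    (hσ : σ • Q ∈ AddSubgroup.zmultiples Q) : σ (psiProd Q N) = psiProd Q N := by
  have hord : addOrderOf (σ • Q) = N := by
    rw [← hQ]
    exact addOrderOf_injective (DistribSMul.toAddMonoidHom (EP W) σ)
      (MulAction.injective σ) Q
  have e : σ (psiProd Q N) = ∏ k ∈ Finset.Ico 1 N, psi2 (k • (σ • Q)) := by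
    unfold psiProd
    rw [map_prod]
    refine Finset.prod_congr rfl fun k _ => ?_
    have e : σ • (k • Q) = k • (σ • Q) := map_nsmul (DistribSMul.toAddMonoidHom (EP W) σ) k Q
    rw [← psi2_smul, e]
  rw [e]
  exact prod_Ico_nsmul_eq hQ hord hσ hN (fun T => psi2 T)

/-- `psiProd` only depends on the subgroup. -/
theorem psiProd_eq_of_mem {F : Type*} [Field F] [DecidableEq F] {V : Affine F} {N : ℕ}
    (hN : 0 < N) {Q R : V.Point} (hQ : addOrderOf Q = N) (hR : addOrderOf R = N)
    (hRQ : R ∈ AddSubgroup.zmultiples Q) : psiProd R N = psiProd Q N :=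
  prod_Ico_nsmul_eq hQ hR hRQ hN (fun T => psi2 T)

end Fermat.Agent.S15.M1.Loc
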