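import Fermat.Agent.S15.M1.Loc.Psi2
import Fermat.Agent.S24.DefsB

/-!
# S15 / M1 / LOC : transport of `ψ₂`, `psiProd` along the fixed embedding `iota : Qbar → ℂ`
-/

set_option autoImplicit false
set_option linter.unusedSectionVars false
set_option linter.unusedVariables false

namespace Fermat.Agent.S15.M1.Loc

open Fermat.Agent.S05 Fermat.Agent.S13 Fermat.Agent.S58 Fermat.Agent.S58.LocM
open WeierstrassCurve WeierstrassCurve.Affine WeierstrassCurve.Affine.Point

/-- the fixed embedding as a `ℚ`-algebra hom. -/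
noncomputable def iotaA : Qb →ₐ[ℚ] ℂ :=
  haveI : Algebra.IsAlgebraic ℚ Qb := AlgebraicClosure.isAlgebraic ℚ
  IsAlgClosed.lift

lemma iotaA_apply (x : Qb) : iotaA x = S24.iota x := rfl

/-- the curve over `ℂ`. -/
noncomputable abbrev WC (W : WeierstrassCurve ℤ) : WeierstrassCurve ℂ := (EQ W)⁄ℂ

variable (W : WeierstrassCurve ℤ)

/-- the points over `Qbar` as complex points. -/
noncomputable def toC : EP W →+ (WC W).toAffine.Point := Point.map (W' := EQ W) iotaA

lemma toC_injective : Function.Injective (toC W) := Point.map_injective (W' := EQ W) iotaA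

lemma addOrderOf_toC (P : EP W) : addOrderOf (toC W P) = addOrderOf P :=
  addOrderOf_injective (toC W) (toC_injective W) P

lemma xc_toC (P : EP W) : xc (toC W P) = S24.iota (xc P) := by
  rcases P with _ | ⟨x, y, h⟩
  · change (0 : ℂ) = S24.iota 0
    rw [_root_.map_zero]
  · rfl

lemma yc_toC (P : EP W) : yc (toC W P) = S24.iota (yc P) := by
  rcases P with _ | ⟨x, y, h⟩
  · change (0 : ℂ) = S24.iota 0
    rw [_root_.map_zero]
  · rfl

lemma psi2_toC (P : EP W) : psi2 (toC W P) = S24.iota (psi2 P) := by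
  unfold psi2
  rw [xc_toC, yc_toC, a₁_of, a₃_of, a₁_of, a₃_of]
  simp only [map_add, map_mul, map_ofNat, map_intCast]

lemma psiProd_toC (Q : EP W) (N : ℕ) : psiProd (toC W Q) N = S24.iota (psiProd Q N) := by
  unfold psiProd
  rw [map_prod]
  refine Finset.prod_congr rfl fun k _ => ?_
  rw [← psi2_toC, map_nsmul]

lemma WC_Δ : (WC W).Δ = (W.Δ : ℂ) := Δ_of W

lemma WC_c₄ : (WC W).c₄ = (W.c₄ : ℂ) := c₄_of W

lemma WC_isElliptic (hΔ : W.Δ ≠ 0) : (WC W).IsElliptic := by
  refine ⟨?_⟩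
  rw [WC_Δ, isUnit_iff_ne_zero]
  exact_mod_cast hΔ

lemma WC_j (hΔ : W.Δ ≠ 0) :
    haveI := WC_isElliptic W hΔ
    (WC W).j = S24.iota ((W.c₄ : Qb) ^ 3 / (W.Δ : Qb)) := by
  have := WC_isElliptic W hΔ
  have h0 : (W.Δ : ℂ) ≠ 0 := by exact_mod_cast hΔ
  rw [map_div₀, map_pow, map_intCast, map_intCast, eq_div_iff h0, ← WC_Δ, ← WC_c₄,
    ← (WC W).coe_Δ', WeierstrassCurve.j]
  rw [mul_comm, ← mul_assoc, Units.mul_inv, one_mul]

end Fermat.Agent.S15.M1.Loc
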