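import Fermat.Agent.S58.LocM.Main
import Fermat.Prelude.Def_EllipticCurve_ZeroComponentAt

/-!
# S15 / M1 / LOC : the `E`-side of the moduli bridge

`psi2 P = 2 y + a₁ x + a₃`.  At a prime `A ∣ ℓ` of multiplicative reduction and for a torsion
point `Q` of odd order prime to `ℓ` :

* `psi2` of a nonzero torsion point is `A`-integral ;
* `Q` not in the zero component  ⟹  `psi2 Q ∈ 𝔪_A` ;
* `Q` in the zero component  ⟹  `psi2 (k • Q)` is a unit of `A` for every `k • Q ≠ 0`.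
-/

set_option autoImplicit false
set_option linter.unusedSectionVars false
set_option linter.unusedVariables false

namespace Fermat.Agent.S15.M1.Loc

open Fermat.Agent.S05 Fermat.Agent.S13 Fermat.Agent.S58 Fermat.Agent.S58.LocM
open WeierstrassCurve WeierstrassCurve.Affine WeierstrassCurve.Affine.Point

/-! ### abstract part -/

section abs

variable {G : Type*} [AddCommGroup G] {K : Type*} [Field K]
  {Γ₀ : Type*} [LinearOrderedCommGroupWithZero Γ₀]
  {v : Valuation K Γ₀} {V : WeierstrassCurve K} {X Z : G → K} {α : Γ₀} {T : AddSubgroup G}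

lemma abs_psi_sq_le_one (h : IsWC V X Z) (hN : IsNodal v V α) {P : G} (hP0 : P ≠ 0)
    (hX : v (X P) ≤ 1) : v ((2 * Z P + V.a₁ * X P + V.a₃) ^ 2) ≤ 1 := by
  rw [h.psi_sq hP0]
  have hb4 : v V.b₄ ≤ 1 := hN.b₄.trans hN.lt_one.le
  have hb6 : v V.b₆ ≤ 1 := hN.b₆.trans hN.lt_one.le
  exact le1_add v (le1_add v (le1_add v (le1_mul v (le1_ofNat v 4) (le1_pow v hX 3))
    (le1_mul v hN.b₂.le (le1_pow v hX 2)))
    (le1_mul v (le1_mul v (le1_ofNat v 2) hb4) hX)) hb6

lemma abs_psi_lt_one (h : IsWC V X Z) (hN : IsNodal v V α) {P : G} (hP0 : P ≠ 0)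
    (hX : v (X P) < 1) : v (2 * Z P + V.a₁ * X P + V.a₃) < 1 := by
  apply lt1_of_pow_lt1 (n := 2)
  rw [h.psi_sq hP0]
  have hb4 : v V.b₄ ≤ 1 := hN.b₄.trans hN.lt_one.le
  have hb6 : v V.b₆ < 1 := hN.b₆.trans_lt hN.lt_one
  have h3 : v (X P ^ 3) < 1 := by
    rw [pow_succ]; exact lt1_mul_right v (le1_pow v hX.le 2) hX
  have h2 : v (X P ^ 2) < 1 := by
    rw [pow_succ]; exact lt1_mul_right v (le1_pow v hX.le 1) hX
  exact lt1_add v (lt1_add v (lt1_add v (lt1_mul_right v (le1_ofNat v 4) h3)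
    (lt1_mul_right v hN.b₂.le h2))
    (lt1_mul_right v (le1_mul v (le1_ofNat v 2) hb4) hX)) hb6

lemma abs_psi_eq_one (h : IsWC V X Z) (hN : IsNodal v V α) (hT : IsTors v X T) {P : G}
    (hP : P ∈ T) (hP0 : P ≠ 0) (hX : v (X P) = 1) :
    v (2 * Z P + V.a₁ * X P + V.a₃) = 1 := by
  have hPP := hT.add_self_ne_zero hP hP0
  have hd := congrArg v (h.dbl hP0 hPP)
  rw [map_mul, unit_num_dbl hN hX, mul_comm] at hd
  have h1 := Unit_eq_one_of_mul (abs_psi_sq_le_one h hN hP0 hX.le)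
    (hT.int _ (T.add_mem hP hP) hPP) hd
  rw [map_pow] at h1
  exact (pow_eq_one_iff.mp h1).resolve_right two_ne_zero

/-- a point whose `X` is in the maximal ideal also has `Z` in the maximal ideal. -/
lemma abs_Z_lt_one (h : IsWC V X Z) (hN : IsNodal v V α) {P : G} (hP0 : P ≠ 0)
    (hX : v (X P) < 1) : v (Z P) < 1 := by
  by_contra hc
  have hZ : 1 ≤ v (Z P) := not_lt.mp hc
  have e := h.eqn P hP0
  have hR : v (X P ^ 3 + V.a₂ * X P ^ 2 + V.a₄ * X P + V.a₆) < 1 := by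
    have h3 : v (X P ^ 3) < 1 := by
      rw [pow_succ]; exact lt1_mul_right v (le1_pow v hX.le 2) hX
    have h2 : v (X P ^ 2) < 1 := by
      rw [pow_succ]; exact lt1_mul_right v (le1_pow v hX.le 1) hX
    exact lt1_add v (lt1_add v (lt1_add v h3 (lt1_mul_right v hN.a₂ h2))
      (lt1_mul_right v (hN.a₄.trans hN.lt_one.le) hX)) (hN.a₆.trans_lt hN.lt_one)
  have hZ0 : 0 < v (Z P) := lt_of_lt_of_le zero_lt_one hZ
  have hc1 : v (V.a₁ * X P + V.a₃) < 1 :=
    lt1_add v (lt1_mul_right v hN.a₁ hX) (hN.a₃.trans_lt hN.lt_one)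
  have hs : v (Z P + (V.a₁ * X P + V.a₃)) = v (Z P) :=
    Valuation.map_add_eq_of_lt_left _ (hc1.trans_le hZ)
  have e2 : Z P * (Z P + (V.a₁ * X P + V.a₃)) =
      X P ^ 3 + V.a₂ * X P ^ 2 + V.a₄ * X P + V.a₆ := by linear_combination e
  rw [← e2, map_mul, hs] at hR
  exact absurd (one_le_mul_of_one_le_of_one_le hZ hZ) (not_le.mpr hR)

end abs

/-! ### the function `ψ₂` -/

section psi

variable {F : Type*} [Field F]

/-- `ψ₂ = 2y + a₁x + a₃` (its value at infinity is irrelevant). -/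
def psi2 {W : Affine F} (P : W.Point) : F := 2 * yc P + W.a₁ * xc P + W.a₃

@[simp] lemma psi2_some {W : Affine F} {x y : F} (h : W.Nonsingular x y) :
    psi2 (Point.some x y h) = 2 * y + W.a₁ * x + W.a₃ := rfl

lemma psi2_shift (W : Affine F) (r t : F) (P : W.Point) :
    2 * (yc P - t) + (shift W r t).a₁ * (xc P - r) + (shift W r t).a₃ = psi2 P := by
  simp only [shift, psi2]; ring

lemma psi2_neg [DecidableEq F] {W : Affine F} {P : W.Point} (hP : P ≠ 0) :
    psi2 (-P) = - psi2 P := by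
  rcases P with _ | ⟨x, y, h⟩
  · exact absurd rfl hP
  · simp only [Point.neg_some, psi2_some, negY]; ring

lemma psi2_sq {W : Affine F} {P : W.Point} (hP : P ≠ 0) :
    psi2 P ^ 2 = 4 * xc P ^ 3 + W.b₂ * xc P ^ 2 + 2 * W.b₄ * xc P + W.b₆ := by
  rcases P with _ | ⟨x, y, h⟩
  · exact absurd rfl hP
  · have e := (equation_iff _ _).1 h.1
    simp only [psi2_some, xc_some, WeierstrassCurve.b₂, WeierstrassCurve.b₄, WeierstrassCurve.b₆]
    linear_combination 4 * e

end psi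

/-! ### the coefficients of the base change -/

section coeff

variable {K : Type*} [Field K] [Algebra ℚ K] (W : WeierstrassCurve ℤ)

lemma a₁_of : ((W.map (Int.castRingHom ℚ))⁄K).a₁ = (W.a₁ : K) := by
  change algebraMap ℚ K (Int.castRingHom ℚ W.a₁) = _
  rw [eq_intCast, map_intCast]

lemma a₂_of : ((W.map (Int.castRingHom ℚ))⁄K).a₂ = (W.a₂ : K) := by
  change algebraMap ℚ K (Int.castRingHom ℚ W.a₂) = _
  rw [eq_intCast, map_intCast]

lemma a₃_of : ((W.map (Int.castRingHom ℚ))⁄K).a₃ = (W.a₃ : K) := by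
  change algebraMap ℚ K (Int.castRingHom ℚ W.a₃) = _
  rw [eq_intCast, map_intCast]

lemma a₄_of : ((W.map (Int.castRingHom ℚ))⁄K).a₄ = (W.a₄ : K) := by
  change algebraMap ℚ K (Int.castRingHom ℚ W.a₄) = _
  rw [eq_intCast, map_intCast]

lemma a₆_of : ((W.map (Int.castRingHom ℚ))⁄K).a₆ = (W.a₆ : K) := by
  change algebraMap ℚ K (Int.castRingHom ℚ W.a₆) = _
  rw [eq_intCast, map_intCast]

end coeff

/-! ### residues -/

section res

variable (A : ValuationSubring Qb)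

lemma residue_eq_zero_iff_val (a : A) :
    IsLocalRing.residue A a = 0 ↔ A.valuation (a : Qb) < 1 := by
  rw [IsLocalRing.residue_eq_zero_iff, ValuationSubring.valuation_lt_one_iff]

/-- the `y`-coordinate of a point with integral `x`-coordinate is integral. -/
lemma val_y_le_one {v : Valuation Qb A.ValueGroup} {V : WeierstrassCurve Qb} (hV : IsInt v V)
    {x y : Qb} (e : V.toAffine.Equation x y) (hx : v x ≤ 1) : v y ≤ 1 := by
  by_contra hc
  have hy : 1 < v y := not_le.mp hc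
  have e1 := (equation_iff _ _).1 e
  have hc1 : v (V.a₁ * x + V.a₃) ≤ 1 := le1_add v (le1_mul v hV.a₁ hx) hV.a₃
  have hs : v (y + (V.a₁ * x + V.a₃)) = v y :=
    Valuation.map_add_eq_of_lt_left _ (hc1.trans_lt hy)
  have hR : v (x ^ 3 + V.a₂ * x ^ 2 + V.a₄ * x + V.a₆) ≤ 1 :=
    le1_add v (le1_add v (le1_add v (le1_pow v hx 3) (le1_mul v hV.a₂ (le1_pow v hx 2)))
      (le1_mul v hV.a₄ hx)) hV.a₆
  have e2 : y * (y + (V.a₁ * x + V.a₃)) = x ^ 3 + V.a₂ * x ^ 2 + V.a₄ * x + V.a₆ := by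
    linear_combination e1
  rw [← e2, map_mul, hs] at hR
  exact absurd (one_lt_mul'' hy hy) (not_lt.mpr hR)

end res

/-! ### the bridge with `InZeroComponentAt` -/

section bridge

variable (W : WeierstrassCurve ℤ) (A : ValuationSubring Qb)

/-- the reduction of an integral point is nonsingular iff one of the two partial derivatives is
a unit. -/
lemma nonsingular_res_iff {x y : Qb} (hx : x ∈ A) (hy : y ∈ A)
    (e : ((EQ W)⁄Qb).toAffine.Equation x y) :
    (W.map (Int.castRingHom (IsLocalRing.ResidueField A))).toAffine.Nonsingular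
        (IsLocalRing.residue A ⟨x, hx⟩) (IsLocalRing.residue A ⟨y, hy⟩) ↔
      ¬ (A.valuation ((W.a₁ : Qb) * y - (3 * x ^ 2 + 2 * (W.a₂ : Qb) * x + (W.a₄ : Qb))) < 1 ∧
        A.valuation (2 * y + (W.a₁ : Qb) * x + (W.a₃ : Qb)) < 1) := by
  set xA : A := ⟨x, hx⟩ with hxA
  set yA : A := ⟨y, hy⟩ with hyA
  have e1 := (equation_iff _ _).1 e
  rw [a₁_of, a₂_of, a₃_of, a₄_of, a₆_of] at e1
  have e2 : yA ^ 2 + (W.a₁ : A) * xA * yA + (W.a₃ : A) * yA =
      xA ^ 3 + (W.a₂ : A) * xA ^ 2 + (W.a₄ : A) * xA + (W.a₆ : A) := by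
    apply Subtype.ext
    push_cast
    exact e1
  have e3 := congrArg (IsLocalRing.residue A) e2
  simp only [map_add, map_mul, map_pow, map_intCast] at e3
  have hX : A.valuation ((W.a₁ : Qb) * y - (3 * x ^ 2 + 2 * (W.a₂ : Qb) * x + (W.a₄ : Qb))) < 1 ↔
      IsLocalRing.residue A ((W.a₁ : A) * yA - (3 * xA ^ 2 + 2 * (W.a₂ : A) * xA + (W.a₄ : A)))
        = 0 := by
    rw [residue_eq_zero_iff_val]
    push_cast
    rfl
  have hY : A.valuation (2 * y + (W.a₁ : Qb) * x + (W.a₃ : Qb)) < 1 ↔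
      IsLocalRing.residue A (2 * yA + (W.a₁ : A) * xA + (W.a₃ : A)) = 0 := by
    rw [residue_eq_zero_iff_val]
    push_cast
    rfl
  rw [hX, hY, nonsingular_iff, equation_iff]
  simp only [map_a₁, map_a₂, map_a₃, map_a₄, map_a₆, eq_intCast, map_add, map_sub, map_mul,
    map_pow, map_intCast, map_ofNat]
  constructor
  · rintro ⟨-, h | h⟩ ⟨h1, h2⟩
    · exact h (sub_eq_zero.mp h1)
    · apply h
      linear_combination h2
  · intro h
    refine ⟨e3, ?_⟩
    by_contra hc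
    push Not at hc
    apply h
    refine ⟨sub_eq_zero.mpr hc.1, ?_⟩
    linear_combination hc.2

end bridge

/-! ### main statements -/

section main

variable {W : WeierstrassCurve ℤ} {A : ValuationSubring Qb}

/-- multiplicative reduction of `W` at `A`. -/
structure Mult (W : WeierstrassCurve ℤ) (A : ValuationSubring Qb) : Prop where
  c₄ : A.valuation (W.c₄ : Qb) = 1
  Δ_lt : A.valuation (W.Δ : Qb) < 1
  Δ_ne : W.Δ ≠ 0

theorem mult_of {ℓ : ℕ} (hℓ : ℓ.Prime) (hΔ : W.Δ ≠ 0) (hℓΔ : (ℓ : ℤ) ∣ W.Δ)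
    (hℓc : ¬ (ℓ : ℤ) ∣ W.c₄) (hA : A.LiesOverPrime ℓ) : Mult W A where
  c₄ := valInt_eq_one _ hℓ (A.mem_nonunits_iff.mp hA) hℓc
  Δ_lt := valInt_lt_one _ (A.mem_nonunits_iff.mp hA) hℓΔ
  Δ_ne := hΔ

theorem val_natCast_eq_one {ℓ : ℕ} (hℓ : ℓ.Prime) (hA : A.LiesOverPrime ℓ) {N : ℕ}
    (hN : ¬ ℓ ∣ N) : A.valuation (N : Qb) = 1 := by
  have := valInt_eq_one A.valuation hℓ (A.mem_nonunits_iff.mp hA) (n := (N : ℤ))
    (by exact_mod_cast hN)
  simpa using this

lemma Mult.isNodal (hM : Mult W A) :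
    IsNodal A.valuation (cen ((EQ W)⁄Qb)) (A.valuation ((EQ W)⁄Qb).Δ) :=
  isNodal_cen (isInt_of (K := Qb) A.valuation W) (by rw [c₄_of]; exact hM.c₄)
    (by rw [Δ_of]; exact hM.Δ_lt) (by rw [Δ_of]; exact_mod_cast hM.Δ_ne)

lemma Mult.val_cenR (hM : Mult W A) : A.valuation (cenR ((EQ W)⁄Qb)) ≤ 1 :=
  LocM.val_cenR (isInt_of (K := Qb) A.valuation W) (by rw [c₄_of]; exact hM.c₄)

lemma val_xc_tors {N : ℕ} (hNv : A.valuation (N : Qb) = 1) {P : EP W} (hP0 : P ≠ 0)
    (hP : N • P = 0) : A.valuation (xc P) ≤ 1 :=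
  have hW := isInt_of (K := Qb) A.valuation W
  val_xc_le_one A hW.a₁ hW.a₂ hW.a₃ hW.a₄ hW.a₆ hNv hP0 hP

lemma Mult.isTors (hM : Mult W A) {N : ℕ} (hN : Odd N) (hNv : A.valuation (N : Qb) = 1) :
    IsTors A.valuation (fun P : EP W => xc P - cenR ((EQ W)⁄Qb)) (tors (EP W) N) :=
  ⟨fun Q hQ hQ0 => le1_sub _ (val_xc_tors hNv hQ0 hQ) hM.val_cenR,
    fun Q hQ => half_of_odd hN hQ⟩

/-- `ψ₂` of a point with integral `x` is integral. -/
theorem psi2_le_one_of_xc {P : EP W} (hP0 : P ≠ 0) (hx : A.valuation (xc P) ≤ 1) :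
    A.valuation (psi2 P) ≤ 1 := by
  have hW := isInt_of (K := Qb) A.valuation W
  rcases P with _ | ⟨x, y, hxy⟩
  · exact absurd rfl hP0
  · have hy := val_y_le_one A hW hxy.1 hx
    rw [psi2_some]
    exact le1_add _ (le1_add _ (le1_mul _ (le1_ofNat _ 2) hy) (le1_mul _ hW.a₁ hx)) hW.a₃

/-- **(LOC 0)** `ψ₂` of a nonzero torsion point of order prime to the residue characteristic is
integral. -/
theorem psi2_le_one {N : ℕ} (hNv : A.valuation (N : Qb) = 1) {P : EP W} (hP0 : P ≠ 0)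
    (hP : N • P = 0) : A.valuation (psi2 P) ≤ 1 :=
  psi2_le_one_of_xc hP0 (val_xc_tors hNv hP0 hP)

/-- **(LOC 1)** a point which is not in the zero component has `ψ₂ ∈ 𝔪_A`
(no hypothesis on the reduction type, nor on the point). -/
theorem psi2_lt_one {P : EP W} (h : ¬ W.InZeroComponentAt A P) : A.valuation (psi2 P) < 1 := by
  rcases P with _ | ⟨x, y, hxy⟩
  · exact absurd (Or.inl rfl) h
  · have hx : x ∈ A := by
      by_contra hx
      exact h (Or.inr ⟨x, y, hxy, rfl, Or.inl hx⟩)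
    have hy : y ∈ A := by
      rw [← ValuationSubring.valuation_le_one_iff] at hx ⊢
      exact val_y_le_one A (isInt_of A.valuation W) hxy.1 hx
    have hns : ¬ (W.map (Int.castRingHom (IsLocalRing.ResidueField A))).toAffine.Nonsingular
        (IsLocalRing.residue A ⟨x, hx⟩) (IsLocalRing.residue A ⟨y, hy⟩) :=
      fun hn => h (Or.inr ⟨x, y, hxy, rfl, Or.inr ⟨hx, hy, hn⟩⟩)
    rw [nonsingular_res_iff W A hx hy hxy.1, not_not] at hns
    rw [psi2_some, a₁_of, a₃_of]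
    exact hns.2

/-- a point with `ψ₂` a unit is in the zero component. -/
theorem inZero_of_psi2 {P : EP W} (h : A.valuation (psi2 P) = 1) : W.InZeroComponentAt A P := by
  by_contra hc
  exact absurd h (psi2_lt_one hc).ne

/-- a nonzero integral point of the zero component is of unit type in the centred model. -/
theorem Mult.val_X_eq_one (hM : Mult W A) {P : EP W} (hP0 : P ≠ 0)
    (hx : A.valuation (xc P) ≤ 1) (h : W.InZeroComponentAt A P) :
    A.valuation (xc P - cenR ((EQ W)⁄Qb)) = 1 := by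
  by_contra hne
  have hlt : A.valuation (xc P - cenR ((EQ W)⁄Qb)) < 1 :=
    lt_of_le_of_ne (le1_sub _ hx hM.val_cenR) hne
  have hWC := isWC_shift ((EQ W)⁄Qb) (cenR ((EQ W)⁄Qb)) (cenT ((EQ W)⁄Qb))
  have hN := hM.isNodal
  have hZ := abs_Z_lt_one hWC hN hP0 hlt
  have hpsi := abs_psi_lt_one hWC hN hP0 hlt
  rcases h with h0 | ⟨x, y, hxy, rfl, h1 | ⟨hx', hy', hns⟩⟩
  · exact hP0 h0
  · exact h1 ((ValuationSubring.valuation_le_one_iff A _).mp hx)
  · rw [nonsingular_res_iff W A hx' hy' hxy.1] at hns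
    apply hns
    constructor
    · have e : (W.a₁ : Qb) * y - (3 * x ^ 2 + 2 * (W.a₂ : Qb) * x + (W.a₄ : Qb)) =
          (cen ((EQ W)⁄Qb)).a₁ * (y - cenT ((EQ W)⁄Qb)) -
            (3 * (x - cenR ((EQ W)⁄Qb)) ^ 2 + 2 * (cen ((EQ W)⁄Qb)).a₂ * (x - cenR ((EQ W)⁄Qb))
              + (cen ((EQ W)⁄Qb)).a₄) := by
        rw [← a₁_of (K := Qb), ← a₂_of (K := Qb), ← a₄_of (K := Qb)]
        simp only [cen, shift]
        ring
      rw [e]
      have hlt' : A.valuation (x - cenR ((EQ W)⁄Qb)) < 1 := hlt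
      have hZ' : A.valuation (y - cenT ((EQ W)⁄Qb)) < 1 := hZ
      refine lt1_sub _ (lt1_mul_right _ hN.a₁ hZ') (lt1_add _ (lt1_add _ ?_ ?_) ?_)
      · rw [pow_two]
        exact lt1_mul_right _ (le1_ofNat _ 3) (lt1_mul_right _ hlt'.le hlt')
      · exact lt1_mul_right _ (le1_mul _ (le1_ofNat _ 2) hN.a₂) hlt'
      · exact hN.a₄.trans_lt hN.lt_one
    · have e := psi2_shift ((EQ W)⁄Qb) (cenR ((EQ W)⁄Qb)) (cenT ((EQ W)⁄Qb)) (Point.some x y hxy)
      have e2 : psi2 (Point.some x y hxy : EP W) = 2 * y + (W.a₁ : Qb) * x + (W.a₃ : Qb) := by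
        change 2 * y + ((EQ W)⁄Qb).a₁ * x + ((EQ W)⁄Qb).a₃ = _
        rw [a₁_of, a₃_of]
      rw [← e2, ← e]
      exact hpsi

/-- **(LOC 2)** if `Q` (odd order `N` prime to the residue characteristic) is in the zero
component at a prime of multiplicative reduction then `ψ₂ (k • Q)` is a unit for all
`k • Q ≠ 0`. -/
theorem Mult.psi2_eq_one (hM : Mult W A) {N : ℕ} (hN : Odd N) (hNv : A.valuation (N : Qb) = 1)
    {Q : EP W} (hQ : N • Q = 0) (h : W.InZeroComponentAt A Q) (k : ℕ) (hk : k • Q ≠ 0) :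
    A.valuation (psi2 (k • Q)) = 1 := by
  have hQ0 : Q ≠ 0 := fun e => hk (by rw [e, nsmul_zero])
  have hWC := isWC_shift ((EQ W)⁄Qb) (cenR ((EQ W)⁄Qb)) (cenT ((EQ W)⁄Qb))
  have hNod := hM.isNodal
  have hT := hM.isTors hN hNv
  have hQT : Q ∈ tors (EP W) N := hQ
  have hX := hM.val_X_eq_one hQ0 (val_xc_tors hNv hQ0 hQ) h
  have hXk := (unit_nsmul hWC hNod hT hQT hQ0 hX k).resolve_left hk
  have := abs_psi_eq_one hWC hNod hT ((tors (EP W) N).nsmul_mem hQT k) hk hXk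
  rw [← psi2_shift ((EQ W)⁄Qb) (cenR ((EQ W)⁄Qb)) (cenT ((EQ W)⁄Qb)) (k • Q)]
  exact this

/-- the zero component is stable under multiples (on odd torsion prime to the residue
characteristic). -/
theorem Mult.inZero_nsmul (hM : Mult W A) {N : ℕ} (hN : Odd N)
    (hNv : A.valuation (N : Qb) = 1) {Q : EP W} (hQ : N • Q = 0)
    (h : W.InZeroComponentAt A Q) (k : ℕ) : W.InZeroComponentAt A (k • Q) := by
  by_cases hk : k • Q = 0
  · exact Or.inl hk
  · exact inZero_of_psi2 (hM.psi2_eq_one hN hNv hQ h k hk)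

/-- Galois equivariance of `ψ₂`. -/
theorem psi2_smul (σ : GQ) (P : EP W) : psi2 (σ • P) = σ (psi2 P) := by
  unfold psi2
  rw [xc_smul, yc_smul, a₁_of, a₃_of]
  simp only [map_add, map_mul, map_ofNat, map_intCast]

/-- `∏_{k=1}^{N-1} ψ₂(kQ)`. -/
noncomputable def psiProd {F : Type*} [Field F] [DecidableEq F] {V : Affine F} (Q : V.Point)
    (N : ℕ) : F :=
  ∏ k ∈ Finset.Ico 1 N, psi2 (k • Q)

lemma nsmul_ne_zero_of_mem_Ico {G : Type*} [AddMonoid G] {Q : G} {N k : ℕ}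
    (hQ : addOrderOf Q = N) (hk : k ∈ Finset.Ico 1 N) : k • Q ≠ 0 := by
  rw [Finset.mem_Ico] at hk
  intro h
  have := addOrderOf_dvd_of_nsmul_eq_zero h
  rw [hQ] at this
  exact absurd (Nat.le_of_dvd (by omega) this) (by omega)

/-- **(LOC 2')** -/
theorem Mult.val_psiProd_eq_one (hM : Mult W A) {N : ℕ} (hN : Odd N)
    (hNv : A.valuation (N : Qb) = 1) {Q : EP W} (hQ : addOrderOf Q = N)
    (h : W.InZeroComponentAt A Q) : A.valuation (psiProd Q N) = 1 := by
  unfold psiProd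
  rw [map_prod]
  refine Finset.prod_eq_one fun k hk => ?_
  exact hM.psi2_eq_one hN hNv (by rw [← hQ]; exact addOrderOf_nsmul_eq_zero Q) h k
    (nsmul_ne_zero_of_mem_Ico hQ hk)

/-- **(LOC 1')** -/
theorem val_psiProd_lt_one {N : ℕ} (hN1 : 1 < N) (hNv : A.valuation (N : Qb) = 1) {Q : EP W}
    (hQ : addOrderOf Q = N) (h : ¬ W.InZeroComponentAt A Q) :
    A.valuation (psiProd Q N) < 1 := by
  unfold psiProd
  have h1 : 1 ∈ Finset.Ico 1 N := Finset.mem_Ico.mpr ⟨le_rfl, hN1⟩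
  rw [← Finset.mul_prod_erase _ _ h1, one_nsmul]
  refine lt1_mul_left _ (psi2_lt_one h) ?_
  rw [map_prod]
  refine Finset.prod_le_one' fun k hk => ?_
  have hk' := Finset.mem_of_mem_erase hk
  exact psi2_le_one hNv (nsmul_ne_zero_of_mem_Ico hQ hk')
    (by rw [← mul_nsmul', mul_nsmul, ← hQ, addOrderOf_nsmul_eq_zero, nsmul_zero])

theorem psiProd_ne_zero {N : ℕ} (hN : Odd N) {Q : EP W} (hQ : addOrderOf Q = N) :
    psiProd Q N ≠ 0 := by
  unfold psiProd
  rw [Finset.prod_ne_zero_iff]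
  intro k hk h0
  have hk0 := nsmul_ne_zero_of_mem_Ico hQ hk
  -- `ψ₂ (T) = 0` means `T = -T`
  have hT : N • (k • Q) = 0 := by
    rw [← mul_nsmul', mul_nsmul, ← hQ, addOrderOf_nsmul_eq_zero, nsmul_zero]
  obtain ⟨j, hj⟩ := half_of_odd hN hT
  generalize k • Q = T at *
  rcases T with _ | ⟨x, y, hxy⟩
  · exact hk0 rfl
  · have hneg : -(Point.some x y hxy : EP W) = Point.some x y hxy := by
      rw [Point.neg_some]
      congr 1
      rw [psi2_some] at h0
      simp only [negY]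
      linear_combination -h0
    have h2 : (Point.some x y hxy : EP W) + Point.some x y hxy = 0 := by
      nth_rewrite 1 [← hneg]
      exact neg_add_cancel _
    rw [h2, nsmul_zero] at hj
    exact hk0 hj.symm

/-- Galois invariance of the product for a rational point. -/
theorem psiProd_fixed {N : ℕ} {Q : EP W} (σ : GQ) (hσ : σ • Q = Q) :
    σ (psiProd Q N) = psiProd Q N := by
  unfold psiProd
  rw [map_prod]
  refine Finset.prod_congr rfl fun k _ => ?_
  have e : σ • (k • Q) = k • (σ • Q) := map_nsmul (DistribSMul.toAddMonoidHom (EP W) σ) k Q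
  rw [← psi2_smul, e, hσ]

end main

end Fermat.Agent.S15.M1.Loc
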